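/-
P-SS2, row 1042 (SS2-C1-NORMZ), helper6.  The arithmetic heart of `V11`, for an ARBITRARY series
`u = t⁻¹ + … ∈ ℤ((t))`:

if `(X - u) · P* = (heckeU q u)(t ↦ t^q) = (X - u(t^(q²))) · F`, `F = (frobPoly q u)(t ↦ t^q)`, then
`P*(u) = q B` with `B̄ ≠ 0`.

Proof without roots of unity: `P*(u) = (u - u(t^(q²))) F'(u)`; applying `θ = t d/dt` to `F(u) = 0`
gives `F'(u) θu = - q ∑ (θ c_i)(t^q) u^i`, and by Kronecker's congruence `F₀ ≡ X^q - u mod q` the
sum reduces to `-(θ ū)(t^q)`.  Hence `B θu = (u - u(t^(q²))) (…)` with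
`B̄ θū = (ū - ū(t^(q²))) (θū)(t^q) ≠ 0`.
-/
import Mathlib
import Fermat.Agent.H8.SS.FrobPoly

set_option autoImplicit false

noncomputable section

open Polynomial ModularCurve

namespace Fermat.Agent.H6.SS2

open Fermat.Agent.H8.SS

section Theta

variable (q : ℕ) [NeZero q] {R : Type*} [CommRing R]

/-- `∑_i (θ c_i)(t^q) u^i` for `P = ∑ c_i X^i`. -/
def thetaSum (u : LaurentSeries R) (P : Polynomial (LaurentSeries R)) : LaurentSeries R :=
  P.sum fun i c => qExpand R q (theta c) * u ^ i

theorem thetaSum_add (u : LaurentSeries R) (P Q : Polynomial (LaurentSeries R)) :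
    thetaSum q u (P + Q) = thetaSum q u P + thetaSum q u Q := by
  unfold thetaSum
  rw [Polynomial.sum_add_index]
  · intro i
    simp
  · intro i a b
    simp [add_mul]

theorem thetaSum_monomial (u : LaurentSeries R) (n : ℕ) (c : LaurentSeries R) :
    thetaSum q u (monomial n c) = qExpand R q (theta c) * u ^ n := by
  unfold thetaSum
  rw [Polynomial.sum_monomial_index]
  simp

/-- **The theta identity for a polynomial with coefficients in `R((t^q))`**. -/
theorem theta_eval_map (u : LaurentSeries R) (P : Polynomial (LaurentSeries R)) :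
    theta ((P.map (qExpand R q)).eval u) =
      (q : LaurentSeries R) * thetaSum q u P +
        (derivative (P.map (qExpand R q))).eval u * theta u := by
  induction P using Polynomial.induction_on' with
  | add P Q hP hQ =>
    rw [Polynomial.map_add, eval_add, map_add, hP, hQ, thetaSum_add, derivative_add, eval_add]
    ring
  | monomial n c =>
    rw [Polynomial.map_monomial, eval_monomial, theta_mul, theta_qExpand, thetaSum_monomial,
      derivative_monomial, eval_monomial, nsmul_eq_mul]
    cases n with
    | zero =>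
      simp [theta_one]
    | succ n =>
      rw [theta_pow]
      simp only [Nat.cast_add, Nat.cast_one, add_tsub_cancel_right]
      ring

/-- naturality of `thetaSum` in the coefficient ring -/
theorem coeffMap_thetaSum {S : Type*} [CommRing S] (φ : R →+* S) (u : LaurentSeries R)
    (P : Polynomial (LaurentSeries R)) :
    coeffMap φ (thetaSum q u P) = thetaSum q (coeffMap φ u) (P.map (coeffMap φ)) := by
  induction P using Polynomial.induction_on' with
  | add P Q hP hQ =>
    rw [thetaSum_add, map_add, hP, hQ, Polynomial.map_add, thetaSum_add]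
  | monomial n c =>
    rw [thetaSum_monomial, Polynomial.map_monomial, thetaSum_monomial, map_mul, map_pow,
      coeffMap_qExpand, coeffMap_theta]

end Theta

/-- **NORMZ, generic form.** -/
theorem normZ_gen (q : ℕ) [NeZero q] [hq : Fact q.Prime] (u : LaurentSeries ℤ)
    (hu1 : u.coeff (-1) = 1) (hu : ∀ n : ℤ, n < -1 → u.coeff n = 0)
    (Pst : Polynomial (LaurentSeries ℤ))
    (h : (X - C u) * Pst = (heckeU q u).map (qExpand ℤ q)) :
    ∃ B : LaurentSeries ℤ, Pst.eval u = (q : LaurentSeries ℤ) * B ∧ redQ q B ≠ 0 := by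
  classical
  have hq0 : (q : ℤ) ≠ 0 := by exact_mod_cast hq.out.ne_zero
  have hq2 : (2 : ℤ) ≤ q := by exact_mod_cast hq.out.two_le
  set H2 : LaurentSeries ℤ := qExpand ℤ q (qExpand ℤ q u) with hH2
  set F : Polynomial (LaurentSeries ℤ) := (frobPoly q u).map (qExpand ℤ q) with hF
  have hG : (heckeU q u).map (qExpand ℤ q) = (X - C H2) * F := by
    rw [heckeU, Polynomial.map_mul, Polynomial.map_sub, Polynomial.map_X, Polynomial.map_C]
  rw [hG] at h
  -- the two nonvanishing reductions
  have hθ : theta (redQ q u) ≠ 0 := by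
    intro h0
    have h1 := congrArg (fun z : LaurentSeries (ZMod q) => z.coeff (-1)) h0
    simp only [theta_coeff, coeffMap_coeff, hu1, HahnSeries.coeff_zero] at h1
    simp at h1
  have hdiff : redQ q (u - H2) ≠ 0 := by
    intro h0
    have h1 := congrArg (fun z : LaurentSeries (ZMod q) => z.coeff ((q : ℤ) * ((q : ℤ) * (-1)))) h0
    simp only [coeffMap_coeff, HahnSeries.coeff_zero] at h1
    have h2 : (u - H2).coeff ((q : ℤ) * ((q : ℤ) * (-1))) = -1 := by
      rw [HahnSeries.coeff_sub, hH2, qExpand_coeff_mul, qExpand_coeff_mul, hu1,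
        hu _ (by nlinarith), zero_sub]
    rw [h2] at h1
    simp at h1
  have hune : u - H2 ≠ 0 := fun h0 => hdiff (by rw [h0, map_zero])
  -- `F(u) = 0`
  have hFu : F.eval u = 0 := by
    have h1 := congrArg (Polynomial.eval u) h
    simp only [eval_mul, eval_sub, eval_X, eval_C, sub_self, zero_mul] at h1
    exact (mul_eq_zero.mp h1.symm).resolve_left hune
  -- `P*(u) = (u - H2) F'(u)`
  have hPu : Pst.eval u = (u - H2) * (derivative F).eval u := by
    have h1 := congrArg (fun P => (derivative P).eval u) h
    simp only [derivative_mul, derivative_sub, derivative_X, derivative_C, sub_zero, one_mul,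
      eval_add, eval_mul, eval_sub, eval_X, eval_C, sub_self, zero_mul, add_zero, hFu,
      zero_add] at h1
    exact h1
  -- the theta identity
  have hθF := theta_eval_map q u (frobPoly q u)
  rw [← hF, hFu, map_zero] at hθF
  set S : LaurentSeries ℤ := thetaSum q u (frobPoly q u) with hS
  have hkey : Pst.eval u * theta u = (q : ℤ) • (-(u - H2) * S) := by
    rw [hPu, zsmul_eq_mul]
    push_cast
    linear_combination (-(u - H2)) * hθF
  have hred0 : redQ q (Pst.eval u * theta u) = 0 := by
    rw [hkey, redQ_eq_zero_iff]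
    intro n
    rw [HahnSeries.coeff_smul, smul_eq_mul]
    exact dvd_mul_right _ _
  have hred1 : redQ q (Pst.eval u) = 0 := by
    rw [map_mul, coeffMap_theta] at hred0
    exact (mul_eq_zero.mp hred0).resolve_right hθ
  obtain ⟨B, hB⟩ := exists_eq_smul_of_redQ_eq_zero q _ hred1
  have hB2 : B * theta u = -(u - H2) * S := by
    apply zsmul_injective_laurent hq0
    rw [← smul_mul_assoc, ← hB, hkey]
  refine ⟨B, by rw [hB, zsmul_eq_mul]; push_cast; rfl, ?_⟩
  intro hB0
  have h1 := congrArg (redQ q) hB2
  rw [map_mul, hB0, zero_mul, map_mul, map_neg, hS, coeffMap_thetaSum, frobPoly_map_redQ] at h1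
  have hSbar : thetaSum q (redQ q u) (X ^ q - C (redQ q u)) =
      - qExpand (ZMod q) q (theta (redQ q u)) := by
    rw [sub_eq_add_neg, thetaSum_add, ← monomial_one_right_eq_X_pow, thetaSum_monomial, theta_one,
      map_zero, zero_mul, zero_add, ← C_neg, ← monomial_zero_left, thetaSum_monomial, map_neg,
      map_neg, pow_zero, mul_one]
  rw [hSbar] at h1
  have h3 : redQ q (u - H2) * qExpand (ZMod q) q (theta (redQ q u)) = 0 := by
    rw [neg_mul_neg] at h1
    exact h1.symm
  rcases mul_eq_zero.mp h3 with h4 | h4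
  · exact hdiff h4
  · exact hθ (qExpand_injective q (by rw [h4, map_zero]))

end Fermat.Agent.H6.SS2

end
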