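/-
P-SS2, row 1042 (SS2-C1-NORMZ), helper6: `modelNormZ q : Fermat.Agent.H86.SS2.ModelNormZStatement q`
(unconditional), from the generic `normZ_gen` applied to the Hauptmodul `H = h4S ℤ` of level 4.
-/
import Mathlib
import Fermat.Agent.H6.SS2.NormZGen
import Fermat.Agent.H86.SS2.Emb3Defs

set_option autoImplicit false

noncomputable section

open Polynomial ModularCurve

namespace Fermat.Agent.H6.SS2

open Fermat.Agent.H8.SS

/-- **SS2-C1-NORMZ** (row 1042). -/
theorem modelNormZ (q : ℕ) [NeZero q] [Fact q.Prime] :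
    Fermat.Agent.H86.SS2.ModelNormZStatement q := by
  intro _ Pst h
  exact normZ_gen q (h4S ℤ) (h4S_coeff_neg_one ℤ) (fun n hn => h4S_coeff_of_lt ℤ hn) Pst h

end Fermat.Agent.H6.SS2

end
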